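/-
S56 / FLAT / LF (architect helper202), leaf LF-4a (Mathlib + Ram/Defs only).
`τ - 1` on the integers of `E` is controlled by `τ π₁ - π₁`, `π₁` a uniformiser of `E`.

Proof.  Induction on `N`, `c` generalised.  `N = 0`: `v (τ c - c) ≤ max (v (τ c)) (v c) ≤ 1` (`hT.inv`).
`N + 1`: `hT.res c hc1` gives `b : F0` with `v (c - b) < 1`.  If `c = b` then `τ c = c` (`τ.commutes`).
Otherwise `v (c - b) = v π₁ ^ k`, `k ≥ 1` (as `v π₁ < 1`), so `c' := (c - b) / π₁ ∈ E`, `v c' ≤ 1`, `c = b + π₁ c'`,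
`τ c - c = (τ π₁ - π₁) * τ c' + π₁ * (τ c' - c')`, and the induction hypothesis for `c'` concludes.
-/
import Fermat.Agent.S56.Flat.LF.Defs

set_option autoImplicit false

namespace Fermat.Agent.S56.Flat.Ram

variable {F0 F : Type*} [Field F0] [Field F] [Algebra F0 F]
variable {Γ : Type*} [LinearOrderedCommGroupWithZero Γ]

theorem TotRam.val_sub_le_of_unif {v : Valuation F Γ} {p : ℕ} (hT : TotRam F0 v p)
    (E : IntermediateField F0 F) (π₁ : F) (hπ : π₁ ∈ E) (hπ0 : π₁ ≠ 0) (hπ1 : v π₁ < 1)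
    (hdisc : ∀ x ∈ E, x ≠ 0 → ∃ k : ℤ, v x = v π₁ ^ k)
    (τ : F ≃ₐ[F0] F) (N : ℕ) (c : F) (hc : c ∈ E) (hc1 : v c ≤ 1) :
    v (τ c - c) ≤ max (v (τ π₁ - π₁)) (v π₁ ^ N) := sorry

end Fermat.Agent.S56.Flat.Ram
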