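/-
S56 / FLAT / LF (architect helper202), leaf LF-4c (Mathlib only): the Kummer generator of a bad element.
`hbin`, `hζ` are the outputs of leaf LF-4d (given here as hypotheses).

`bad1_val`: `v (a - 1) < 1` so `v a = 1`, `v α = 1` (`pow_eq_one_iff`), `β := α - 1`, `v β ≤ 1`.  `hbin 1 β`:
`a - 1 = β ^ p + p * 1 * β * r`, `v (p β r) ≤ v p = v ϖ ^ e < v ϖ ^ j = v (a - 1)`, hence `v (β ^ p) = v (a - 1)`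
(`Valuation.map_sub_eq_of_lt_right` or similar).
`bad1_delta`: `α ≠ 0`, `α - 1 ≠ 0`.  `ζ := τ α / α`, `ζ ^ p = τ a / a = 1`, `δ := (ζ - 1) * α / (α - 1)`.
`v δ ^ p * v ϖ ^ j = v (ζ - 1) ^ p ≤ v ϖ ^ (p * e')`, and `p * e' = e' + e ≥ (e' + 1) + j`; cancel `v ϖ ^ j ≠ 0`.
`bad2_delta`: `δ := ζ - 1`, `v δ ^ p ≤ v ϖ ^ (p * e') ≤ v ϖ ^ (e' + 1)` as `p * e' = e' + e`, `e ≥ 1`.
-/
import Fermat.Agent.S56.Flat.LF.Defs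

set_option autoImplicit false

namespace Fermat.Agent.S56.Flat.Ram

variable {F : Type*} [Field F] {Γ : Type*} [LinearOrderedCommGroupWithZero Γ]

theorem bad1_val (v : Valuation F Γ) {p : ℕ} (hp : p.Prime)
    (hbin : ∀ x y : F, v x ≤ 1 → v y ≤ 1 →
      ∃ r : F, v r ≤ 1 ∧ (x + y) ^ p = x ^ p + y ^ p + (p : F) * x * y * r)
    (e : ℕ) (ϖ : F) (hϖ : ϖ ^ e = (p : F)) (hϖ0 : ϖ ≠ 0) (hϖ1 : v ϖ < 1)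
    (a α : F) (hα : α ^ p = a) (j : ℕ) (hj0 : 0 < j) (hje : j < e) (hja : v (a - 1) = v ϖ ^ j) :
    v α = 1 ∧ v (α - 1) ^ p = v ϖ ^ j := sorry

theorem bad1_delta (v : Valuation F Γ) {p : ℕ} (hp : p.Prime) (e e' : ℕ) (he : e = (p - 1) * e')
    (ϖ : F) (hϖ0 : ϖ ≠ 0) (hϖ1 : v ϖ < 1)
    (hζ : ∀ ζ : F, ζ ^ p = 1 → v (ζ - 1) ≤ v ϖ ^ e')
    (a α : F) (hα : α ^ p = a) (j : ℕ) (hje : j < e) (hα1 : v α = 1)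
    (hβ : v (α - 1) ^ p = v ϖ ^ j) (τ : F →+* F) (hτa : τ a = a) :
    ∃ δ : F, τ (α - 1) = (α - 1) * (1 + δ) ∧ v δ ^ p ≤ v ϖ ^ (e' + 1) := sorry

theorem bad2_delta (v : Valuation F Γ) {p : ℕ} (hp : p.Prime) (e e' : ℕ) (he : e = (p - 1) * e')
    (he0 : e ≠ 0) (ϖ : F) (hϖ1 : v ϖ < 1)
    (hζ : ∀ ζ : F, ζ ^ p = 1 → v (ζ - 1) ≤ v ϖ ^ e')
    (a α : F) (hα : α ^ p = a) (ha0 : a ≠ 0) (τ : F →+* F) (hτa : τ a = a) :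
    ∃ δ : F, τ α = α * (1 + δ) ∧ v δ ^ p ≤ v ϖ ^ (e' + 1) := sorry

end Fermat.Agent.S56.Flat.Ram
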