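/-
S56 / FLAT / LF (architect helper202), leaf LF-4b (Mathlib only): the explicit uniformiser
`π₁ = β ^ x * ϖ ^ y`, `x j + y p = 1`.

Proof of `exists_val_pow_eq`: `p` prime, `p ∤ j`, so `IsCoprime j p` in `ℤ`
(`(Nat.prime_iff_prime_int.mp hp).coprime_iff_not_dvd`, `Int.isCoprime_iff_gcd_eq_one` ...): `x0 j + y0 p = 1`.
Replace `x0` by `x = x0 + p * |x0| ≥ 0` (or `x0 % p`, `Int.emod_nonneg`) and `y0` by `y0 - j * |x0|`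
to have `x : ℕ`.  Then `v (β ^ x * ϖ ^ y) ^ p = (v β ^ p) ^ x * (v ϖ ^ y) ^ p = v ϖ ^ (j x + y p) = v ϖ`
(`map_mul, map_pow, map_zpow₀, zpow_natCast, ← zpow_mul, ← zpow_add₀`, `v ϖ ≠ 0`).
Proof of `val_sub_le_of_ratio`: `τ (β ^ x * ϖ ^ y) = β ^ x * ϖ ^ y * (1 + δ) ^ x` (`map_mul, map_pow, map_zpow₀`),
`(1 + δ) ^ x - 1 = (∑ i ∈ range x, (1 + δ) ^ i) * δ` (`geom_sum_mul`), `v (1 + δ) ≤ 1`, `Valuation.map_sum_le`.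
-/
import Fermat.Agent.S56.Flat.LF.Defs

set_option autoImplicit false

namespace Fermat.Agent.S56.Flat.Ram

variable {F : Type*} [Field F] {Γ : Type*} [LinearOrderedCommGroupWithZero Γ]

theorem exists_val_pow_eq (v : Valuation F Γ) {p : ℕ} (hp : p.Prime) (ϖ β : F) (hϖ0 : ϖ ≠ 0)
    (j : ℤ) (hj : ¬ (p : ℤ) ∣ j) (hβ : v β ^ p = v ϖ ^ j) :
    ∃ (x : ℕ) (y : ℤ), v (β ^ x * ϖ ^ y) ^ p = v ϖ := sorry

theorem val_sub_le_of_ratio (v : Valuation F Γ) (τ : F →+* F) (ϖ β δ : F) (hτϖ : τ ϖ = ϖ)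
    (hτβ : τ β = β * (1 + δ)) (hδ : v δ ≤ 1) (x : ℕ) (y : ℤ) :
    v (τ (β ^ x * ϖ ^ y) - β ^ x * ϖ ^ y) ≤ v (β ^ x * ϖ ^ y) * v δ := sorry

end Fermat.Agent.S56.Flat.Ram
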