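/-
S56 / FLAT / LF (architect helper202), leaf LF-R (Mathlib only): degrees of radical extensions.

`finrank_adjoin_root_le`: `ϖ` is a root of `X ^ e - C x` (monic of degree `e`), so it is integral,
`IntermediateField.adjoin.finrank` + `minpoly.min` / `Polynomial.natDegree_le_of_dvd (minpoly.dvd ..)`.
`finrank_adjoin_pair_le`: `E := F0⟮ϖ⟯`; `α` is a root of `X ^ p - C ⟨α ^ p, hα⟩ ∈ E[X]`, so `finrank E E⟮α⟯ ≤ p`
(first part over `E`); `(E⟮α⟯).restrictScalars F0 = F0⟮ϖ, α⟯` (`IntermediateField.adjoin_simple_adjoin_simple`)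
and `Module.finrank_mul_finrank F0 E E⟮α⟯`.  (`F0⟮ϖ, α⟯` is notation for `IntermediateField.adjoin F0 {ϖ, α}`.)
-/
import Mathlib

set_option autoImplicit false

namespace Fermat.Agent.S56.Flat.Ram

open IntermediateField

variable {F0 F : Type*} [Field F0] [Field F] [Algebra F0 F]

theorem finrank_adjoin_root_le (ϖ : F) (e : ℕ) (he : e ≠ 0) (x : F0)
    (hϖ : ϖ ^ e = algebraMap F0 F x) : Module.finrank F0 F0⟮ϖ⟯ ≤ e := sorry

theorem finrank_adjoin_pair_le (ϖ α : F) (e p : ℕ) (he : e ≠ 0) (hp : p ≠ 0) (x : F0)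
    (hϖ : ϖ ^ e = algebraMap F0 F x) (hα : α ^ p ∈ F0⟮ϖ⟯) :
    Module.finrank F0 (IntermediateField.adjoin F0 {ϖ, α}) ≤ p * e := sorry

end Fermat.Agent.S56.Flat.Ram
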