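/-
S56 / FLAT / LF (architect helper202), leaf LF-G (Mathlib only): Galois plumbing.

`IsGalois.card_aut_eq_finrank`, `IsGalois.card_fixingSubgroup_eq_finrank` (`Nat.card E.fixingSubgroup = finrank E F`),
`Module.finrank_mul_finrank F0 E F`, `IsGalois.fixedField_fixingSubgroup`, `IntermediateField.mem_fixedField_iff`,
`IntermediateField.mem_fixingSubgroup_iff`, `IntermediateField.fixingSubgroup_antitone`/`.le`.
-/
import Mathlib

set_option autoImplicit false

namespace Fermat.Agent.S56.Flat.Ram

open IntermediateField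

variable {F0 F : Type*} [Field F0] [Field F] [Algebra F0 F]

theorem card_fixingSubgroup_mul [FiniteDimensional F0 F] [IsGalois F0 F]
    (E : IntermediateField F0 F) :
    Nat.card E.fixingSubgroup * Module.finrank F0 E = Module.finrank F0 F := sorry

theorem card_aut_eq [FiniteDimensional F0 F] [IsGalois F0 F] :
    Nat.card (F ≃ₐ[F0] F) = Module.finrank F0 F := sorry

theorem mem_of_fixingSubgroup_smul [FiniteDimensional F0 F] [IsGalois F0 F]
    (E : IntermediateField F0 F) (c : F) (h : ∀ s ∈ E.fixingSubgroup, s • c = c) : c ∈ E := sorry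

theorem apply_eq_of_mem_fixingSubgroup (E : IntermediateField F0 F) (s : F ≃ₐ[F0] F)
    (hs : s ∈ E.fixingSubgroup) (x : F) (hx : x ∈ E) : s x = x := sorry

theorem fixingSubgroup_le_of_le {E E₁ : IntermediateField F0 F} (h : E ≤ E₁) :
    E₁.fixingSubgroup ≤ E.fixingSubgroup := sorry

end Fermat.Agent.S56.Flat.Ram
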