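/-
S56 / FLAT / LF (architect helper202), leaves LF-5b, LF-5c (Mathlib + Ram/Defs only): the two steps of the
normal form of `E^× / p`-th powers.  `E` is any intermediate field containing `ϖ`.

`unit_step`: `hT.res a` gives `b₀ : F0`, `v (a - b₀) < 1`, so `v b₀ = 1`; `hT.root b₀` gives `w : F0`, `v (w ^ p - b₀) < 1`,
so `v w = 1`, `w ≠ 0`.  `b := (algebraMap F0 F w)⁻¹ ∈ E` (`E.algebraMap_mem`, `E.inv_mem`);
`a * b ^ p - 1 = ((a - b₀) - (w ^ p - b₀)) * b ^ p`.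
`raise_step`: `j = p * i`, `i ≥ 1`.  `u := (a - 1) / ϖ ^ j`, `v u = 1`; `hT.res u`: `u₀ : F0`, `v (u - u₀) < 1`, `v u₀ = 1`;
`hT.root (-u₀)`: `s : F0`, `v (s ^ p + u₀) < 1`, `v s = 1`.  `b := 1 + s * ϖ ^ i ∈ E`, `b ≠ 0` as `v (s ϖ ^ i) < 1`.
`hbin 1 (s ϖ^i)`: `b ^ p = 1 + s ^ p ϖ ^ j + p * 1 * (s ϖ ^ i) * r`.  Then
`a b ^ p - 1 = (u + s ^ p) ϖ ^ j + u s ^ p ϖ ^ j ϖ ^ j + a * (p s ϖ ^ i r)`; each of the three terms has `v < v ϖ ^ j`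
(`v (u + s ^ p) < 1`; `v ϖ ^ j < 1`; `v p = v ϖ ^ e < v ϖ ^ j`, `v a ≤ 1`).
-/
import Fermat.Agent.S56.Flat.LF.Defs

set_option autoImplicit false

namespace Fermat.Agent.S56.Flat.Ram

variable {F0 F : Type*} [Field F0] [Field F] [Algebra F0 F]
variable {Γ : Type*} [LinearOrderedCommGroupWithZero Γ]

theorem TotRam.unit_step {v : Valuation F Γ} {p : ℕ} (hT : TotRam F0 v p)
    (E : IntermediateField F0 F) (a : F) (ha1 : v a = 1) :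
    ∃ b ∈ E, b ≠ 0 ∧ v (a * b ^ p - 1) < 1 := sorry

theorem TotRam.raise_step {v : Valuation F Γ} {p : ℕ} (hp : p.Prime) (hT : TotRam F0 v p)
    (hbin : ∀ x y : F, v x ≤ 1 → v y ≤ 1 →
      ∃ r : F, v r ≤ 1 ∧ (x + y) ^ p = x ^ p + y ^ p + (p : F) * x * y * r)
    (E : IntermediateField F0 F) (e : ℕ) (ϖ : F) (hϖE : ϖ ∈ E) (hϖ : ϖ ^ e = (p : F))
    (a : F) (j : ℕ) (hj0 : 0 < j) (hje : j < e) (hpj : p ∣ j) (hja : v (a - 1) = v ϖ ^ j) :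
    ∃ b ∈ E, b ≠ 0 ∧ v (a * b ^ p - 1) < v ϖ ^ j := sorry

end Fermat.Agent.S56.Flat.Ram
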