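/-
S56 / FLAT / LF (architect helper202), leaf LF-5d (Mathlib + Ram/Defs only): the induction of the normal form.
`hraise` is the output of LF-5c, `hdisc` the discreteness of `v` on `E` (uniformiser `ϖ`).

Proof of `normal_form_of_lt_one`: strong induction on `e - j` / or: prove by induction on `k : ℕ` the statement
"for all `a ∈ E` with `v (a - 1) ≤ v ϖ ^ (e - k)` and `v (a - 1) < 1` the conclusion holds".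
If `a = 1` or `v (a - 1) ≤ v ϖ ^ e = v p`: take `b = 1`.  Otherwise `v (a - 1) = v ϖ ^ j` with `j : ℤ`, `0 < j < e`
(`zpow` monotonicity, `0 < v ϖ < 1`), `j = (j.toNat : ℤ)`.  If `p ∤ j`: `Bad1`, `b = 1`.  If `p ∣ j`: `hraise` gives `b₁`,
`a₁ := a * b₁ ^ p ∈ E` has `v (a₁ - 1) < v ϖ ^ j`, i.e. `≤ v ϖ ^ (j + 1)` by discreteness; induction gives `b₂`;
`b := b₁ * b₂`, `a * (b₁ * b₂) ^ p = a₁ * b₂ ^ p`.
Proof of `normal_form`: `v a = v ϖ ^ k`.  If `p ∤ k`: `Bad2`, `b = 1`.  If `k = p * l`: `b₀ := ϖ ^ (-l) ∈ E` (`zpow_mem`), `v (a * b₀ ^ p) = 1`;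
`hunit` gives `b₁` with `v (a b₀ ^ p b₁ ^ p - 1) < 1`; then `normal_form_of_lt_one` gives `b₂`; `b := b₀ * b₁ * b₂`.
-/
import Fermat.Agent.S56.Flat.LF.Defs

set_option autoImplicit false

namespace Fermat.Agent.S56.Flat.Ram

variable {F0 F : Type*} [Field F0] [Field F] [Algebra F0 F]
variable {Γ : Type*} [LinearOrderedCommGroupWithZero Γ]

theorem normal_form_of_lt_one (v : Valuation F Γ) (p : ℕ) (E : IntermediateField F0 F) (e : ℕ)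
    (ϖ : F) (hϖ0 : ϖ ≠ 0) (hϖ1 : v ϖ < 1) (hϖ : ϖ ^ e = (p : F))
    (hdisc : ∀ x ∈ E, x ≠ 0 → ∃ k : ℤ, v x = v ϖ ^ k)
    (hraise : ∀ (a : F) (j : ℕ), a ∈ E → 0 < j → j < e → p ∣ j → v (a - 1) = v ϖ ^ j →
      ∃ b ∈ E, b ≠ 0 ∧ v (a * b ^ p - 1) < v ϖ ^ j)
    (a : F) (ha : a ∈ E) (ha1 : v (a - 1) < 1) :
    ∃ b ∈ E, b ≠ 0 ∧ (v (a * b ^ p - 1) ≤ v (p : F) ∨ Bad1 v ϖ (a * b ^ p) e p) := sorry

theorem normal_form (v : Valuation F Γ) (p : ℕ) (E : IntermediateField F0 F) (e : ℕ)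
    (ϖ : F) (hϖE : ϖ ∈ E) (hϖ0 : ϖ ≠ 0) (hϖ1 : v ϖ < 1) (hϖ : ϖ ^ e = (p : F))
    (hdisc : ∀ x ∈ E, x ≠ 0 → ∃ k : ℤ, v x = v ϖ ^ k)
    (hunit : ∀ a : F, a ∈ E → v a = 1 → ∃ b ∈ E, b ≠ 0 ∧ v (a * b ^ p - 1) < 1)
    (hlt : ∀ a : F, a ∈ E → v (a - 1) < 1 →
      ∃ b ∈ E, b ≠ 0 ∧ (v (a * b ^ p - 1) ≤ v (p : F) ∨ Bad1 v ϖ (a * b ^ p) e p))
    (a : F) (ha : a ∈ E) (ha0 : a ≠ 0) :
    ∃ b ∈ E, b ≠ 0 ∧ (v (a * b ^ p - 1) ≤ v (p : F) ∨ Bad1 v ϖ (a * b ^ p) e p ∨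
      Bad2 v ϖ (a * b ^ p) p) := sorry

end Fermat.Agent.S56.Flat.Ram
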