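/-
S56 / FLAT / LF (architect helper202), leaf LF-U (Mathlib + Ram/Defs only): criterion for uniformisers.

Proof.  `hT.unif E` gives `π ∈ E`, `v π ^ r = v p` (`r = finrank F0 E`) and `v x = v π ^ k` on `E \ 0`.
`v p ≠ 0` (`hT.p_ne`), `v p < 1` (`hT.p_lt`), so `r ≠ 0`, `d ≠ 0`, `0 < v π < 1`, `π₁ ≠ 0`.
Write `v π₁ = v π ^ k` (`k : ℤ`).  Then `v π ^ (k * d) = v p = v π ^ r`, so `k * d = r`
(`zpow_right_injective₀` / `zpow_right_inj₀`), with `0 < r ≤ d`: hence `k = 1`, `r = d`, `v π₁ = v π`.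
-/
import Fermat.Agent.S56.Flat.LF.Defs

set_option autoImplicit false

namespace Fermat.Agent.S56.Flat.Ram

variable {F0 F : Type*} [Field F0] [Field F] [Algebra F0 F]
variable {Γ : Type*} [LinearOrderedCommGroupWithZero Γ]

theorem TotRam.unif_of_pow {v : Valuation F Γ} {p : ℕ} (hT : TotRam F0 v p)
    (E : IntermediateField F0 F) (π₁ : F) (hπ : π₁ ∈ E) (d : ℕ) (hd : v π₁ ^ d = v (p : F))
    (hle : Module.finrank F0 E ≤ d) :
    Module.finrank F0 E = d ∧ ∀ x ∈ E, x ≠ 0 → ∃ k : ℤ, v x = v π₁ ^ k := sorry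

end Fermat.Agent.S56.Flat.Ram
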