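/-
S56 / FLAT / LF (architect helper202), leaf LF-4d (Mathlib only): `v (ζ - 1) ^ (p - 1) ≤ v p` for `ζ ^ p = 1`;
and the shape of `(x + y) ^ p` for integral `x, y`.

Proof of `exists_add_pow_eq`: apply Mathlib's `exists_add_pow_prime_eq hp` in the subring `v.integer`
(elements `⟨x, hx⟩, ⟨y, hy⟩`) and push the equality to `F` (`congrArg Subtype.val`, `push_cast`/`simp`).
Proof of `val_root_sub_one_le`: if `ζ = 1`: `0 ^ (p - 1) = 0` (`p - 1 ≠ 0`).  Otherwise `v ζ = 1` (`pow_eq_one_iff`), `λ := ζ - 1`,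
`v λ ≤ 1`; `1 = (1 + λ) ^ p = 1 + λ ^ p + p * 1 * λ * r`, `v r ≤ 1`, so `λ ^ (p - 1) = - p * r` (cancel `λ ≠ 0`).
-/
import Fermat.Agent.S56.Flat.LF.Defs

set_option autoImplicit false

namespace Fermat.Agent.S56.Flat.Ram

variable {F : Type*} [Field F] {Γ : Type*} [LinearOrderedCommGroupWithZero Γ]

theorem exists_add_pow_eq (v : Valuation F Γ) {p : ℕ} (hp : p.Prime) (x y : F) (hx : v x ≤ 1)
    (hy : v y ≤ 1) : ∃ r : F, v r ≤ 1 ∧ (x + y) ^ p = x ^ p + y ^ p + (p : F) * x * y * r := sorry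

theorem val_root_sub_one_le (v : Valuation F Γ) {p : ℕ} (hp : p.Prime) (ζ : F) (hζ : ζ ^ p = 1) :
    v (ζ - 1) ^ (p - 1) ≤ v (p : F) := sorry

/-- consequence: `v p = (v ϖ ^ e') ^ (p - 1)`, take `(p-1)`-th roots (`pow_le_pow_iff_left₀`). -/
theorem val_root_sub_one_le' (v : Valuation F Γ) {p : ℕ} (hp : p.Prime) (e e' : ℕ)
    (he : e = (p - 1) * e') (ϖ : F) (hϖ : ϖ ^ e = (p : F)) (ζ : F) (hζ : ζ ^ p = 1) :
    v (ζ - 1) ≤ v ϖ ^ e' := sorry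

end Fermat.Agent.S56.Flat.Ram
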