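/-
S56 / FLAT / LF (architect helper202): ASSEMBLY of LF4, LF5, NUM and of the abstract form of RAM,
`kummer_level_abs`, from the leaves of `Flat/LF/*` and helper18's `lower_bound` (`Flat/Ram/Lower`).
-/
import Fermat.Agent.S56.Flat.LF.WIP.Unif
import Fermat.Agent.S56.Flat.LF.WIP.Approx
import Fermat.Agent.S56.Flat.LF.WIP.Bezout
import Fermat.Agent.S56.Flat.LF.WIP.Zeta
import Fermat.Agent.S56.Flat.LF.WIP.Bad
import Fermat.Agent.S56.Flat.LF.WIP.Finrank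
import Fermat.Agent.S56.Flat.LF.WIP.Gal
import Fermat.Agent.S56.Flat.LF.WIP.Norm5
import Fermat.Agent.S56.Flat.LF.WIP.Norm5Ind
import Fermat.Agent.S56.Flat.Ram.WIP.Lower

set_option autoImplicit false

namespace Fermat.Agent.S56.Flat.Ram

open IntermediateField

variable {F0 F : Type*} [Field F0] [Field F] [Algebra F0 F]
variable {Γ : Type*} [LinearOrderedCommGroupWithZero Γ]

/-- basic facts on `ϖ`. -/
theorem TotRam.varpi_facts {v : Valuation F Γ} {p : ℕ} (hT : TotRam F0 v p) (e : ℕ) (ϖ : F)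
    (hϖ : ϖ ^ e = (p : F)) : e ≠ 0 ∧ ϖ ≠ 0 ∧ v ϖ < 1 := by
  have hvp : v ϖ ^ e = v (p : F) := by rw [← map_pow, hϖ]
  have he : e ≠ 0 := by
    rintro rfl
    have := hT.p_lt
    rw [← hvp] at this
    simp at this
  refine ⟨he, ?_, ?_⟩
  · rintro rfl
    rw [zero_pow he] at hϖ
    exact hT.p_ne hϖ.symm
  · by_contra h
    have := one_le_pow₀ (not_lt.mp h) (n := e)
    rw [hvp] at this
    exact absurd hT.p_lt (not_lt.mpr this)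

theorem TotRam.lf4_core {v : Valuation F Γ} {p : ℕ} (hp : p.Prime) (hT : TotRam F0 v p)
    (e e' : ℕ) (ϖ : F) (hϖ : ϖ ^ e = (p : F))
    (E : IntermediateField F0 F) (hϖE : ϖ ∈ E) (hE : Module.finrank F0 E ≤ p * e)
    (β : F) (hβE : β ∈ E) (j : ℤ) (hj : ¬ (p : ℤ) ∣ j) (hβ : v β ^ p = v ϖ ^ j) :
    Module.finrank F0 E = p * e ∧
    ∀ (τ : F ≃ₐ[F0] F), τ ϖ = ϖ → ∀ δ : F, τ β = β * (1 + δ) → v δ ^ p ≤ v ϖ ^ (e' + 1) →
      ∀ c ∈ E, v c ≤ 1 → v (τ c - c) ^ p ≤ v ϖ ^ (e' + 2) := by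
  obtain ⟨he0, hϖ0, hϖ1⟩ := hT.varpi_facts e ϖ hϖ
  obtain ⟨x, y, hxy⟩ := exists_val_pow_eq v hp ϖ β hϖ0 j hj hβ
  set π₁ := β ^ x * ϖ ^ y with hπ₁
  have hπE : π₁ ∈ E := E.mul_mem (pow_mem hβE x) (zpow_mem hϖE y)
  have hd : v π₁ ^ (p * e) = v (p : F) := by rw [pow_mul, hxy, ← map_pow, hϖ]
  obtain ⟨hfr, hdisc⟩ := hT.unif_of_pow E π₁ hπE (p * e) hd hE
  refine ⟨hfr, ?_⟩
  intro τ hτϖ δ hτβ hδ c hc hc1
  have hπ1 : v π₁ < 1 := by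
    by_contra h
    have := one_le_pow₀ (not_lt.mp h) (n := p)
    rw [hxy] at this
    exact absurd hϖ1 (not_lt.mpr this)
  have hπ0 : π₁ ≠ 0 := by
    intro h
    rw [h, map_zero, zero_pow hp.ne_zero] at hxy
    exact (v.ne_zero_iff.mpr hϖ0) hxy.symm
  have hδ1 : v δ ≤ 1 := by
    by_contra h
    have h1 : 1 < v δ ^ p := one_lt_pow₀ (not_le.mp h) hp.ne_zero
    have h2 : v ϖ ^ (e' + 1) ≤ 1 := pow_le_one₀ zero_le hϖ1.le
    exact absurd (h1.trans_le hδ) (not_lt.mpr h2)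
  have h1 := hT.val_sub_le_of_unif E π₁ hπE hπ0 hπ1 hdisc τ (e' + 2) c hc hc1
  have h2 := val_sub_le_of_ratio v (τ : F →+* F) ϖ β δ hτϖ hτβ hδ1 x y
  have h3 : v (τ π₁ - π₁) ^ p ≤ v ϖ ^ (e' + 2) := by
    calc v (τ π₁ - π₁) ^ p ≤ (v π₁ * v δ) ^ p := pow_le_pow_left₀ zero_le h2 p
      _ = v ϖ * v δ ^ p := by rw [mul_pow, hxy]
      _ ≤ v ϖ * v ϖ ^ (e' + 1) := mul_le_mul' le_rfl hδ
      _ = v ϖ ^ (e' + 2) := by rw [← pow_succ']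
  have h4 : (v π₁ ^ (e' + 2)) ^ p = v ϖ ^ (e' + 2) := by
    rw [← pow_mul, mul_comm, pow_mul, hxy]
  calc v (τ c - c) ^ p ≤ (max (v (τ π₁ - π₁)) (v π₁ ^ (e' + 2))) ^ p :=
        pow_le_pow_left₀ zero_le h1 p
    _ ≤ v ϖ ^ (e' + 2) := by
      rcases le_total (v (τ π₁ - π₁)) (v π₁ ^ (e' + 2)) with h | h
      · rw [max_eq_right h, h4]
      · rw [max_eq_left h]; exact h3

theorem apply_eq_of_mem_adjoin_simple (τ : F ≃ₐ[F0] F) (ϖ : F) (h : τ ϖ = ϖ) (a : F)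
    (ha : a ∈ F0⟮ϖ⟯) : τ a = a := by
  induction ha using IntermediateField.adjoin_induction with
  | mem x hx => rw [Set.mem_singleton_iff.mp hx]; exact h
  | algebraMap x => exact τ.commutes x
  | add x y _ _ hx hy => rw [map_add, hx, hy]
  | inv x _ hx => rw [map_inv₀, hx]
  | mul x y _ _ hx hy => rw [map_mul, hx, hy]

/-- **LF4**. -/
theorem TotRam.lf4 {v : Valuation F Γ} {p : ℕ} (hp : p.Prime) (hT : TotRam F0 v p)
    (e e' : ℕ) (he : e = (p - 1) * e') (ϖ : F) (hϖ : ϖ ^ e = (p : F)) (a α : F)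
    (ha : a ∈ F0⟮ϖ⟯) (hα : α ^ p = a) (hbad : Bad1 v ϖ a e p ∨ Bad2 v ϖ a p) :
    Module.finrank F0 (IntermediateField.adjoin F0 {ϖ, α}) = p * e ∧
    ∀ τ : F ≃ₐ[F0] F, τ ϖ = ϖ → ∀ c ∈ IntermediateField.adjoin F0 {ϖ, α}, v c ≤ 1 →
      v (τ c - c) ^ p ≤ v ϖ ^ (e' + 2) := by
  obtain ⟨he0, hϖ0, hϖ1⟩ := hT.varpi_facts e ϖ hϖ
  set E₁ := IntermediateField.adjoin F0 {ϖ, α} with hE₁
  have hϖE : ϖ ∈ E₁ := IntermediateField.subset_adjoin F0 _ (by simp)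
  have hαE : α ∈ E₁ := IntermediateField.subset_adjoin F0 _ (by simp)
  have hE : Module.finrank F0 E₁ ≤ p * e :=
    finrank_adjoin_pair_le ϖ α e p he0 hp.ne_zero (p : F0) (by rw [hϖ, map_natCast])
      (by rw [hα]; exact ha)
  have hζ : ∀ ζ : F, ζ ^ p = 1 → v (ζ - 1) ≤ v ϖ ^ e' :=
    fun ζ hζ => val_root_sub_one_le' v hp e e' he ϖ hϖ ζ hζ
  rcases hbad with ⟨j, hj0, hje, hpj, hja⟩ | ⟨j, hpj, hja⟩
  · obtain ⟨hα1, hβ⟩ := bad1_val v hp (exists_add_pow_eq v hp) e ϖ hϖ hϖ0 hϖ1 a α hα j hj0 hje hja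
    obtain ⟨h1, h2⟩ := hT.lf4_core hp e e' ϖ hϖ E₁ hϖE hE (α - 1)
      (E₁.sub_mem hαE E₁.one_mem) (j : ℤ) (by rwa [Int.natCast_dvd_natCast])
      (by rw [hβ, zpow_natCast])
    refine ⟨h1, fun τ hτ c hc hc1 => ?_⟩
    obtain ⟨δ, hδ1, hδ2⟩ := bad1_delta v hp e e' he ϖ hϖ0 hϖ1 hζ a α hα j hje hα1 hβ
      (τ : F →+* F) (apply_eq_of_mem_adjoin_simple τ ϖ hτ a ha)
    exact h2 τ hτ δ hδ1 hδ2 c hc hc1
  · have ha0 : a ≠ 0 := by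
      intro h
      rw [h, map_zero] at hja
      exact (zpow_ne_zero j (v.ne_zero_iff.mpr hϖ0)) hja.symm
    obtain ⟨h1, h2⟩ := hT.lf4_core hp e e' ϖ hϖ E₁ hϖE hE α hαE j hpj
      (by rw [← map_pow, hα, hja])
    refine ⟨h1, fun τ hτ c hc hc1 => ?_⟩
    obtain ⟨δ, hδ1, hδ2⟩ := bad2_delta v hp e e' he he0 ϖ hϖ1 hζ a α hα ha0
      (τ : F →+* F) (apply_eq_of_mem_adjoin_simple τ ϖ hτ a ha)
    exact h2 τ hτ δ hδ1 hδ2 c hc hc1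

/-- `ϖ` is a uniformiser of `F0⟮ϖ⟯`, of degree `e`. -/
theorem TotRam.varpi_unif {v : Valuation F Γ} {p : ℕ} (hT : TotRam F0 v p) (e : ℕ) (ϖ : F)
    (hϖ : ϖ ^ e = (p : F)) :
    Module.finrank F0 F0⟮ϖ⟯ = e ∧ ∀ x ∈ F0⟮ϖ⟯, x ≠ 0 → ∃ k : ℤ, v x = v ϖ ^ k := by
  obtain ⟨he0, hϖ0, hϖ1⟩ := hT.varpi_facts e ϖ hϖ
  exact hT.unif_of_pow F0⟮ϖ⟯ ϖ (mem_adjoin_simple_self F0 ϖ) e (by rw [← map_pow, hϖ])
    (finrank_adjoin_root_le ϖ e he0 (p : F0) (by rw [hϖ, map_natCast]))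

/-- **LF5**. -/
theorem TotRam.lf5 {v : Valuation F Γ} {p : ℕ} (hp : p.Prime) (hT : TotRam F0 v p) (e : ℕ)
    (ϖ : F) (hϖ : ϖ ^ e = (p : F)) (a : F) (ha : a ∈ F0⟮ϖ⟯) (ha0 : a ≠ 0) :
    ∃ b ∈ F0⟮ϖ⟯, b ≠ 0 ∧ (v (a * b ^ p - 1) ≤ v (p : F) ∨ Bad1 v ϖ (a * b ^ p) e p ∨
      Bad2 v ϖ (a * b ^ p) p) := by
  obtain ⟨he0, hϖ0, hϖ1⟩ := hT.varpi_facts e ϖ hϖ
  obtain ⟨-, hdisc⟩ := hT.varpi_unif e ϖ hϖ
  have hϖE := mem_adjoin_simple_self F0 ϖ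
  refine normal_form v p F0⟮ϖ⟯ e ϖ hϖE hϖ0 hϖ1 hϖ hdisc
    (fun a _ ha1 => hT.unit_step F0⟮ϖ⟯ a ha1) ?_ a ha ha0
  intro a ha ha1
  exact normal_form_of_lt_one v p F0⟮ϖ⟯ e ϖ hϖ0 hϖ1 hϖ hdisc
    (fun a j _ hj0 hje hpj hja =>
      hT.raise_step hp (exists_add_pow_eq v hp) F0⟮ϖ⟯ e ϖ hϖE hϖ a j hj0 hje hpj hja) a ha ha1

/-- **NUM**. -/
theorem num_contra (p m e' Φ : ℤ) (hp : 2 ≤ p) (hm : 1 ≤ m)
    (h1 : m * (m * p * ((p - 1) * e') - m * p) + (m * p) * (m * (e' + 2)) ≤ m * Φ)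
    (h2 : (p - 1) * (Φ - 1) ≤ p * (m * p * ((p - 1) * e'))) : False := by
  have h3 : m * p * (p * e' + 1) ≤ Φ := by
    refine le_of_mul_le_mul_left ?_ (show (0 : ℤ) < m by linarith)
    calc m * (m * p * (p * e' + 1))
        = m * (m * p * ((p - 1) * e') - m * p) + (m * p) * (m * (e' + 2)) := by ring
      _ ≤ m * Φ := h1
  have h4 : Φ - 1 ≤ m * p * (p * e') := by
    refine le_of_mul_le_mul_left ?_ (show (0 : ℤ) < p - 1 by linarith)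
    calc (p - 1) * (Φ - 1) ≤ p * (m * p * ((p - 1) * e')) := h2
      _ = (p - 1) * (m * p * (p * e')) := by ring
  have h5 : m * p ≤ 1 := by nlinarith
  nlinarith

/-- **Abstract RAM**: Fontaine's bound forces Kummer generators over `F0⟮ϖ⟯` to be `≡ 1 mod p`
up to `p`-th powers. -/
theorem kummer_level_abs [FiniteDimensional F0 F] [IsGalois F0 F] (v : Valuation F Γ) (p : ℕ)
    (hp : p.Prime) (hT : TotRam F0 v p) (π : F) (hπ : IsUnif v π)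
    (hπn : v π ^ Module.finrank F0 F = v (p : F))
    (hgen : ∀ s : F ≃ₐ[F0] F, s ≠ 1 → s • π ≠ π) (hF : FonBound F0 v p π)
    (e : ℕ) (hpe : (p - 1) ∣ e) (ϖ : F) (hϖ : ϖ ^ e = (p : F))
    (a α : F) (ha0 : a ≠ 0) (ha : a ∈ F0⟮ϖ⟯) (hα : α ^ p = a) :
    ∃ b ∈ F0⟮ϖ⟯, b ≠ 0 ∧ v (a * b ^ p - 1) ≤ v (p : F) := by
  obtain ⟨e', he⟩ := hpe
  obtain ⟨he0, hϖ0, hϖ1⟩ := hT.varpi_facts e ϖ hϖ
  obtain ⟨hfrE, -⟩ := hT.varpi_unif e ϖ hϖ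
  obtain ⟨b, hbE, hb0, hcase⟩ := hT.lf5 hp e ϖ hϖ a ha ha0
  rcases hcase with hgood | hbad
  · exact ⟨b, hbE, hb0, hgood⟩
  exfalso
  have ha' : a * b ^ p ∈ F0⟮ϖ⟯ := mul_mem ha (pow_mem hbE p)
  have hα' : (α * b) ^ p = a * b ^ p := by rw [mul_pow, hα]
  obtain ⟨hfrE₁, hbound⟩ := hT.lf4 hp e e' he ϖ hϖ (a * b ^ p) (α * b) ha' hα' hbad
  set E : IntermediateField F0 F := F0⟮ϖ⟯ with hE
  set E₁ : IntermediateField F0 F := IntermediateField.adjoin F0 {ϖ, α * b} with hE₁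
  have hEE₁ : E ≤ E₁ := by
    rw [hE, IntermediateField.adjoin_simple_le_iff]
    exact IntermediateField.subset_adjoin F0 _ (by simp)
  set n := Module.finrank F0 F with hn
  set m := Nat.card E₁.fixingSubgroup with hm
  have hn0 : 0 < n := Module.finrank_pos
  have hcH : m * (p * e) = n := by rw [hm, ← hfrE₁]; exact card_fixingSubgroup_mul E₁
  have hcK : Nat.card E.fixingSubgroup = m * p := by
    have h1 : Nat.card E.fixingSubgroup * e = n := by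
      have := card_fixingSubgroup_mul E
      rwa [hfrE] at this
    have h2 : Nat.card E.fixingSubgroup * e = (m * p) * e := by rw [h1, ← hcH]; ring
    exact Nat.eq_of_mul_eq_mul_right (Nat.pos_of_ne_zero he0) h2
  have hcG : Nat.card (F ≃ₐ[F0] F) = n := card_aut_eq
  have hm0 : 0 < m := by
    rcases Nat.eq_zero_or_pos m with h | h
    · rw [h, zero_mul] at hcH; omega
    · exact h
  have hvϖ : v ϖ = v π ^ (m * p) := by
    have h1 : v ϖ ^ e = (v π ^ (m * p)) ^ e := by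
      rw [← pow_mul, ← map_pow, hϖ, ← hπn, ← hcH]; ring_nf
    exact (pow_left_inj₀ zero_le zero_le he0).mp h1
  have hinv : ∀ (s : F ≃ₐ[F0] F) (x : F), v (s • x) = v x := fun s x => hT.inv s x
  have hB : ∀ τ ∈ E.fixingSubgroup, τ ∉ E₁.fixingSubgroup → ∀ c : F,
      (∀ h ∈ E₁.fixingSubgroup, h • c = c) → v c ≤ 1 →
      v (τ • c - c) ≤ v π ^ (((m * (e' + 2) : ℕ)) : ℤ) := by
    intro τ hτ _ c hc hc1
    have hcE : c ∈ E₁ := mem_of_fixingSubgroup_smul E₁ c hc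
    have hτϖ : τ ϖ = ϖ :=
      apply_eq_of_mem_fixingSubgroup E τ hτ ϖ (mem_adjoin_simple_self F0 ϖ)
    have h1 := hbound τ hτϖ c hcE hc1
    rw [zpow_natCast]
    have h2 : v ϖ ^ (e' + 2) = (v π ^ (m * (e' + 2))) ^ p := by
      rw [hvϖ, ← pow_mul, ← pow_mul]; ring_nf
    rw [h2] at h1
    exact (pow_le_pow_iff_left₀ zero_le zero_le hp.ne_zero).mp h1
  have hlt : ∃ τ ∈ E.fixingSubgroup, τ ∉ E₁.fixingSubgroup := by
    by_contra hcon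
    have hle : E.fixingSubgroup ≤ E₁.fixingSubgroup := by
      intro τ hτ
      by_contra h
      exact hcon ⟨τ, hτ, h⟩
    have heq : E.fixingSubgroup = E₁.fixingSubgroup :=
      le_antisymm hle (fixingSubgroup_le_of_le hEE₁)
    rw [heq, ← hm] at hcK
    have := hp.two_le
    nlinarith
  obtain ⟨τ0, -, hτ0⟩ := id hlt
  classical
  have hτ01 : τ0 ≠ 1 := fun h => hτ0 (h ▸ Subgroup.one_mem _)
  obtain ⟨s1, hs1, hmax⟩ := Finset.exists_min_image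
    (Finset.univ.filter fun s : F ≃ₐ[F0] F => s ≠ 1) (fun s => v (s • π - π))
    ⟨τ0, by simp [hτ01]⟩
  have hs1' : s1 ≠ 1 := by simpa using hs1
  have hmax' : ∀ s : F ≃ₐ[F0] F, s ≠ 1 → v (s1 • π - π) ≤ v (s • π - π) :=
    fun s hs => hmax s (by simp [hs])
  have hL := lower_bound v π hπ hinv hgen s1 hs1' hmax' E₁.fixingSubgroup E.fixingSubgroup
    (fixingSubgroup_le_of_le hEE₁) hlt _ hB
  have hU := hF s1 hs1' hmax'
  rw [hcK, hcG, ← hm] at hL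
  have hnZ : (n : ℤ) = (m : ℤ) * p * (((p : ℤ) - 1) * e') := by
    rw [← hcH, he]
    have := hp.one_le
    push_cast [Nat.cast_sub this]
    ring
  rw [← hn, hnZ] at hU
  rw [hnZ] at hL
  refine num_contra (p : ℤ) (m : ℤ) (e' : ℤ) _ (by exact_mod_cast hp.two_le)
    (by exact_mod_cast hm0) ?_ hU
  push_cast at hL
  exact hL

end Fermat.Agent.S56.Flat.Ram
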